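/-
S48 wall (W), seat A5 (owner helper21), part COSET (helper67).

Diamond representatives, conjugation of `Γ₁(M)` by `Γ₀(M)`, the classical right coset
representatives of `T_p` on `Γ₁(M)` and the coset relation
`α'_x γ = γ_x α'_{γ̄ x}` with `γ_x ∈ Γ₁(M)` for `γ ∈ Γ₁(M)`.
Exact API of helper21's GRP stub (first half).
-/
import Mathlib
import Fermat.Prelude.Def_ModularCurve_PeriodMap
import Fermat.Prelude.Sol.S_ModularForm_heckeT_slash_eq_self_of_mem_Gamma0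
import Fermat.Agent.MUL.S48.W.A1.Hol

set_option autoImplicit false

noncomputable section

namespace Fermat.Agent.S48WA5

open CongruenceSubgroup Matrix.SpecialLinearGroup ModularCurve.Period
open scoped MatrixGroups
open P2MW.S_ModularForm_heckeT_slash_eq_self_of_mem_Gamma0.ModularForm.HeckeSlashInvariance

/-- The lattice `Hom_par(Γ₁(M), ℤ)`. -/
abbrev HomParOne (M : ℕ) : Type := parabolicHoms ℤ (Gamma1 M) ℤ

/-! ### diamond representatives -/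

theorem exists_diaRep (M : ℕ) [NeZero M] (d : (ZMod M)ˣ) :
    ∃ σ : Gamma0 M, Gamma0Map M σ = (d : ZMod M) := by
  have hcop : IsCoprime (((d : ZMod M).val : ℕ) : ℤ) (M : ℤ) :=
    Nat.isCoprime_iff_coprime.mpr (ZMod.val_coe_unit_coprime d)
  obtain ⟨a, b, hab⟩ := hcop
  refine ⟨⟨⟨!![a, -b; (M : ℤ), (((d : ZMod M).val : ℕ) : ℤ)], ?_⟩, ?_⟩, ?_⟩
  · rw [Matrix.det_fin_two_of]
    linear_combination hab
  · rw [Gamma0_mem]
    simp
  · show ((((d : ZMod M).val : ℕ) : ℤ) : ZMod M) = (d : ZMod M)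
    simp

/-- a chosen `σ_d ∈ Γ₀(M)` with lower right entry `≡ d mod M`. -/
def diaRep (M : ℕ) [NeZero M] (d : (ZMod M)ˣ) : Gamma0 M := (exists_diaRep M d).choose

theorem diaRep_spec (M : ℕ) [NeZero M] (d : (ZMod M)ˣ) :
    Gamma0Map M (diaRep M d) = (d : ZMod M) := (exists_diaRep M d).choose_spec

/-- membership in `Γ₁(M)` through `Gamma0Map`. -/
theorem mem_Gamma1_iff_Gamma0Map {M : ℕ} (g : Gamma0 M) :
    (g : SL(2, ℤ)) ∈ Gamma1 M ↔ Gamma0Map M g = 1 := by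
  rw [Gamma1_mem, ← Gamma1_to_Gamma0_mem, Gamma1_mem']

theorem Gamma0Map_mul_inv {M : ℕ} (σ : Gamma0 M) : Gamma0Map M σ * Gamma0Map M σ⁻¹ = 1 := by
  rw [← map_mul, mul_inv_cancel, map_one]

theorem Gamma0Map_inv_mul {M : ℕ} (σ : Gamma0 M) : Gamma0Map M σ⁻¹ * Gamma0Map M σ = 1 := by
  rw [← map_mul, inv_mul_cancel, map_one]

theorem conjOne_mem {M : ℕ} (σ : Gamma0 M) (γ : Gamma1 M) :
    (σ : SL(2, ℤ)) * (γ : SL(2, ℤ)) * (σ : SL(2, ℤ))⁻¹ ∈ Gamma1 M := by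
  have h1 : Gamma0Map M ⟨γ, Gamma1_in_Gamma0 M γ.2⟩ = 1 :=
    (mem_Gamma1_iff_Gamma0Map ⟨γ, Gamma1_in_Gamma0 M γ.2⟩).mp γ.2
  have h2 : ((σ * ⟨γ, Gamma1_in_Gamma0 M γ.2⟩ * σ⁻¹ : Gamma0 M) : SL(2, ℤ)) ∈ Gamma1 M := by
    rw [mem_Gamma1_iff_Gamma0Map, map_mul, map_mul, h1, mul_one, Gamma0Map_mul_inv]
  exact h2

/-- `Γ₁(M)` is normal in `Γ₀(M)`: conjugation by `σ ∈ Γ₀(M)`. -/
def conjOne {M : ℕ} (σ : Gamma0 M) (γ : Gamma1 M) : Gamma1 M :=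
  ⟨(σ : SL(2, ℤ)) * (γ : SL(2, ℤ)) * (σ : SL(2, ℤ))⁻¹, conjOne_mem σ γ⟩

/-! ### Hecke representatives and cosets
`α'_j = (1 j; 0 p)`, `α'_∞ = σ_p (p 0; 0 1)`  (classical `T_p` on `Γ₁(M)`). -/

/-- the classical right coset representatives of `Γ₁(M) (1 0; 0 p) Γ₁(M)`. -/
def heckeRepOne (M : ℕ) [NeZero M] {p : ℕ} (hpM : Nat.Coprime p M) (x : OnePoint (ZMod p)) :
    GL (Fin 2) ℝ :=
  x.elim (mapGL ℝ ((diaRep M (ZMod.unitOfCoprime p hpM) : Gamma0 M) : SL(2, ℤ)) * heckeRep p x)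
    (fun _ => heckeRep p x)

variable {M : ℕ} [NeZero M] {p : ℕ} [Fact p.Prime]

/-- the twisting element `s_x ∈ Γ₀(M)`: `σ_p` at `∞`, `1` elsewhere. -/
def cosetTwist (hpM : Nat.Coprime p M) (x : OnePoint (ZMod p)) : Gamma0 M :=
  x.elim (diaRep M (ZMod.unitOfCoprime p hpM)) (fun _ => 1)

theorem heckeRepOne_eq (hpM : Nat.Coprime p M) (x : OnePoint (ZMod p)) :
    heckeRepOne M hpM x = mapGL ℝ ((cosetTwist hpM x : Gamma0 M) : SL(2, ℤ)) * heckeRep p x := by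
  induction x using OnePoint.rec with
  | infty => rfl
  | coe j =>
    show heckeRep p (j : OnePoint (ZMod p)) = mapGL ℝ ((1 : Gamma0 M) : SL(2, ℤ)) * heckeRep p j
    rw [Subgroup.coe_one, map_one, one_mul]

/-- the lower right entry of `heckeRep p x`. -/
def heckeLR (p : ℕ) (x : OnePoint (ZMod p)) : ℕ := x.elim 1 (fun _ => p)

/-- the upper right entry of `heckeRep p x`. -/
def heckeUR (p : ℕ) (x : OnePoint (ZMod p)) : ℕ := x.elim 0 (fun j => j.val)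

omit [NeZero M] in
theorem heckeRep_one_zero (x : OnePoint (ZMod p)) : (heckeRep p x : GL (Fin 2) ℝ) 1 0 = 0 := by
  have hp : p ≠ 0 := (Fact.out : p.Prime).ne_zero
  induction x using OnePoint.rec with
  | infty =>
    show ((ModularForm.heckeDiagMatrix p : GL (Fin 2) ℝ) : Matrix (Fin 2) (Fin 2) ℝ) 1 0 = 0
    rw [ModularForm.val_heckeDiagMatrix hp]
    rfl
  | coe j =>
    show ((ModularForm.heckeMatrix p j.val : GL (Fin 2) ℝ) : Matrix (Fin 2) (Fin 2) ℝ) 1 0 = 0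
    rw [ModularForm.val_heckeMatrix hp]
    rfl

omit [NeZero M] in
theorem heckeRep_one_one (x : OnePoint (ZMod p)) :
    (heckeRep p x : GL (Fin 2) ℝ) 1 1 = (heckeLR p x : ℝ) := by
  have hp : p ≠ 0 := (Fact.out : p.Prime).ne_zero
  induction x using OnePoint.rec with
  | infty =>
    show ((ModularForm.heckeDiagMatrix p : GL (Fin 2) ℝ) : Matrix (Fin 2) (Fin 2) ℝ) 1 1 = ((1 : ℕ) : ℝ)
    rw [ModularForm.val_heckeDiagMatrix hp]
    simp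
  | coe j =>
    show ((ModularForm.heckeMatrix p j.val : GL (Fin 2) ℝ) : Matrix (Fin 2) (Fin 2) ℝ) 1 1 = ((p : ℕ) : ℝ)
    rw [ModularForm.val_heckeMatrix hp]
    rfl

omit [NeZero M] in
theorem heckeRep_zero_one (x : OnePoint (ZMod p)) :
    (heckeRep p x : GL (Fin 2) ℝ) 0 1 = (heckeUR p x : ℝ) := by
  have hp : p ≠ 0 := (Fact.out : p.Prime).ne_zero
  induction x using OnePoint.rec with
  | infty =>
    show ((ModularForm.heckeDiagMatrix p : GL (Fin 2) ℝ) : Matrix (Fin 2) (Fin 2) ℝ) 0 1 = ((0 : ℕ) : ℝ)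
    rw [ModularForm.val_heckeDiagMatrix hp]
    simp
  | coe j =>
    show ((ModularForm.heckeMatrix p j.val : GL (Fin 2) ℝ) : Matrix (Fin 2) (Fin 2) ℝ) 0 1 = ((j.val : ℕ) : ℝ)
    rw [ModularForm.val_heckeMatrix hp]
    rfl

/-- `d(s_x) · e(x) = p` in `ℤ/M`. -/
theorem cosetTwist_mul_heckeLR (hpM : Nat.Coprime p M) (x : OnePoint (ZMod p)) :
    Gamma0Map M (cosetTwist hpM x) * ((heckeLR p x : ℕ) : ZMod M) = (p : ZMod M) := by
  induction x using OnePoint.rec with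
  | infty =>
    show Gamma0Map M (diaRep M (ZMod.unitOfCoprime p hpM)) * (((1 : ℕ) : ℕ) : ZMod M) = _
    rw [diaRep_spec, ZMod.coe_unitOfCoprime, Nat.cast_one, mul_one]
  | coe j =>
    show Gamma0Map M (1 : Gamma0 M) * ((p : ℕ) : ZMod M) = _
    rw [map_one, one_mul]

/-- the relation between the lower right entries in `heckeRep_mul`. -/
theorem heckeLR_mul_eq {g g' : SL(2, ℤ)} {x x' : OnePoint (ZMod p)}
    (hg' : (M : ℤ) ∣ g' 1 0)
    (h : heckeRep p x * mapGL ℝ g = mapGL ℝ g' * heckeRep p x') :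
    ((heckeLR p x : ℕ) : ZMod M) * ((g 1 1 : ℤ) : ZMod M)
      = ((g' 1 1 : ℤ) : ZMod M) * ((heckeLR p x' : ℕ) : ZMod M) := by
  have h1 := congrArg (fun A : GL (Fin 2) ℝ => (A : Matrix (Fin 2) (Fin 2) ℝ) 1 1) h
  simp only [Units.val_mul, Matrix.mul_apply, Fin.sum_univ_two] at h1
  have e1 : ((heckeRep p x : GL (Fin 2) ℝ) : Matrix (Fin 2) (Fin 2) ℝ) 1 0 = 0 :=
    heckeRep_one_zero x
  have e2 : ((heckeRep p x : GL (Fin 2) ℝ) : Matrix (Fin 2) (Fin 2) ℝ) 1 1 = (heckeLR p x : ℝ) :=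
    heckeRep_one_one x
  have e3 : ((heckeRep p x' : GL (Fin 2) ℝ) : Matrix (Fin 2) (Fin 2) ℝ) 1 1
      = (heckeLR p x' : ℝ) := heckeRep_one_one x'
  have e4 : ((heckeRep p x' : GL (Fin 2) ℝ) : Matrix (Fin 2) (Fin 2) ℝ) 0 1
      = (heckeUR p x' : ℝ) := heckeRep_zero_one x'
  have e5 : ∀ (γ : SL(2, ℤ)) (i j : Fin 2),
      ((mapGL ℝ γ : GL (Fin 2) ℝ) : Matrix (Fin 2) (Fin 2) ℝ) i j = ((γ i j : ℤ) : ℝ) :=
    fun γ i j => mapGL_apply γ i j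
  rw [e1, e2, e3, e4, e5, e5, e5, e5] at h1
  have h2 : ((heckeLR p x : ℕ) : ℤ) * g 1 1
      = g' 1 0 * ((heckeUR p x' : ℕ) : ℤ) + g' 1 1 * ((heckeLR p x' : ℕ) : ℤ) := by
    have : (0 : ℝ) * ((g 0 1 : ℤ) : ℝ) + (heckeLR p x : ℝ) * ((g 1 1 : ℤ) : ℝ)
        = ((g' 1 0 : ℤ) : ℝ) * (heckeUR p x' : ℝ) + ((g' 1 1 : ℤ) : ℝ) * (heckeLR p x' : ℝ) := h1
    rw [zero_mul, zero_add] at this
    exact_mod_cast this
  have h3 := congrArg (Int.cast : ℤ → ZMod M) h2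
  push_cast at h3
  rw [(ZMod.intCast_zmod_eq_zero_iff_dvd _ _).mpr hg', zero_mul, zero_add] at h3
  exact h3

/-- coset relation on `Γ₀(M)`, preserving the lower right entry mod `M`. -/
theorem exists_cosetZero (hpM : Nat.Coprime p M) (γ : Gamma0 M) (x : OnePoint (ZMod p)) :
    ∃ γ' : Gamma0 M, Gamma0Map M γ' = Gamma0Map M γ ∧
      heckeRepOne M hpM x * mapGL ℝ (γ : SL(2, ℤ)) =
        mapGL ℝ (γ' : SL(2, ℤ)) * heckeRepOne M hpM (redMatrix p (γ : SL(2, ℤ)) • x) := by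
  have hp : p.Prime := Fact.out
  have hpM' : ¬ p ∣ M := fun h => by
    have h1 : p ∣ Nat.gcd p M := Nat.dvd_gcd dvd_rfl h
    rw [Nat.Coprime.gcd_eq_one hpM] at h1
    exact hp.one_lt.ne' (Nat.dvd_one.mp h1)
  have hγ : (M : ℤ) ∣ (γ : SL(2, ℤ)) 1 0 :=
    (ZMod.intCast_zmod_eq_zero_iff_dvd _ _).mp (Gamma0_mem.mp γ.2)
  obtain ⟨g', hg', hmul⟩ := heckeRep_mul hpM' (γ : SL(2, ℤ)) hγ x
  set x' := redMatrix p (γ : SL(2, ℤ)) • x with hx'
  let G' : Gamma0 M := ⟨g', Gamma0_mem.mpr ((ZMod.intCast_zmod_eq_zero_iff_dvd _ _).mpr hg')⟩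
  have hLR : ((heckeLR p x : ℕ) : ZMod M) * Gamma0Map M γ
      = Gamma0Map M G' * ((heckeLR p x' : ℕ) : ZMod M) := heckeLR_mul_eq hg' hmul
  refine ⟨cosetTwist hpM x * G' * (cosetTwist hpM x')⁻¹, ?_, ?_⟩
  · -- the lower right entry
    have hunit : IsUnit ((p : ℕ) : ZMod M) := (ZMod.isUnit_iff_coprime p M).mpr hpM
    apply hunit.mul_right_cancel
    have h1 := cosetTwist_mul_heckeLR hpM x
    have h2 := cosetTwist_mul_heckeLR hpM x'
    have h3 := Gamma0Map_inv_mul (cosetTwist hpM x')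
    rw [map_mul, map_mul]
    calc Gamma0Map M (cosetTwist hpM x) * Gamma0Map M G' * Gamma0Map M (cosetTwist hpM x')⁻¹
          * (p : ZMod M)
        = Gamma0Map M (cosetTwist hpM x) * Gamma0Map M G' * Gamma0Map M (cosetTwist hpM x')⁻¹
          * (Gamma0Map M (cosetTwist hpM x') * ((heckeLR p x' : ℕ) : ZMod M)) := by rw [h2]
      _ = Gamma0Map M (cosetTwist hpM x) * (Gamma0Map M G' * ((heckeLR p x' : ℕ) : ZMod M))
          * (Gamma0Map M (cosetTwist hpM x')⁻¹ * Gamma0Map M (cosetTwist hpM x')) := by ring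
      _ = Gamma0Map M (cosetTwist hpM x) * (((heckeLR p x : ℕ) : ZMod M) * Gamma0Map M γ) := by
          rw [h3, mul_one, hLR]
      _ = (Gamma0Map M (cosetTwist hpM x) * ((heckeLR p x : ℕ) : ZMod M)) * Gamma0Map M γ := by
          ring
      _ = Gamma0Map M γ * (p : ZMod M) := by rw [h1, mul_comm]
  · rw [heckeRepOne_eq hpM x, heckeRepOne_eq hpM x', mul_assoc, hmul]
    simp only [Subgroup.coe_mul, Subgroup.coe_inv, map_mul, map_inv]
    show _ = mapGL ℝ ((cosetTwist hpM x : Gamma0 M) : SL(2, ℤ)) * mapGL ℝ g' *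
      (mapGL ℝ ((cosetTwist hpM x' : Gamma0 M) : SL(2, ℤ)))⁻¹ *
      (mapGL ℝ ((cosetTwist hpM x' : Gamma0 M) : SL(2, ℤ)) * heckeRep p x')
    group

def cosetZero (hpM : Nat.Coprime p M) (γ : Gamma0 M) (x : OnePoint (ZMod p)) : Gamma0 M :=
  (exists_cosetZero hpM γ x).choose

theorem cosetZero_map (hpM : Nat.Coprime p M) (γ : Gamma0 M) (x : OnePoint (ZMod p)) :
    Gamma0Map M (cosetZero hpM γ x) = Gamma0Map M γ := (exists_cosetZero hpM γ x).choose_spec.1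

theorem cosetZero_spec (hpM : Nat.Coprime p M) (γ : Gamma0 M) (x : OnePoint (ZMod p)) :
    heckeRepOne M hpM x * mapGL ℝ (γ : SL(2, ℤ)) =
      mapGL ℝ ((cosetZero hpM γ x : Gamma0 M) : SL(2, ℤ)) *
        heckeRepOne M hpM (redMatrix p (γ : SL(2, ℤ)) • x) :=
  (exists_cosetZero hpM γ x).choose_spec.2

theorem cosetOne_mem (hpM : Nat.Coprime p M) (γ : Gamma1 M) (x : OnePoint (ZMod p)) :
    ((cosetZero hpM ⟨γ, Gamma1_in_Gamma0 M γ.2⟩ x : Gamma0 M) : SL(2, ℤ)) ∈ Gamma1 M := by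
  rw [mem_Gamma1_iff_Gamma0Map, cosetZero_map]
  exact (mem_Gamma1_iff_Gamma0Map ⟨γ, Gamma1_in_Gamma0 M γ.2⟩).mp γ.2

/-- the coset element of `γ ∈ Γ₁(M)` lies in `Γ₁(M)`. -/
def cosetOne (hpM : Nat.Coprime p M) (γ : Gamma1 M) (x : OnePoint (ZMod p)) : Gamma1 M :=
  ⟨(cosetZero hpM ⟨γ, Gamma1_in_Gamma0 M γ.2⟩ x : Gamma0 M), cosetOne_mem hpM γ x⟩

theorem cosetOne_spec (hpM : Nat.Coprime p M) (γ : Gamma1 M) (x : OnePoint (ZMod p)) :
    heckeRepOne M hpM x * mapGL ℝ (γ : SL(2, ℤ)) =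
      mapGL ℝ ((cosetOne hpM γ x : Gamma1 M) : SL(2, ℤ)) *
        heckeRepOne M hpM (redMatrix p (γ : SL(2, ℤ)) • x) :=
  cosetZero_spec hpM ⟨γ, Gamma1_in_Gamma0 M γ.2⟩ x

end Fermat.Agent.S48WA5
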